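import Fermat.Agent.S19.KM.Geom.Mod.Defs
import Fermat.Agent.S18.Vert.GaussRes

/-!
# S19 / KM route, block [G], section M6 (part a): the two Gauss rings coincide

`S18.Vert.gaussVal A F hq` (quotients of integral series lying in `F`) and
`S28.Export.gaussRing A F h` (elements of `F` having a reduction) are the same valuation ring of `F`,
and the two residue maps coincide.  Task 2221 (helper275).
-/

set_option autoImplicit false

noncomputable section

namespace Fermat.Agent.S19.KM.Mod

open ModularCurve Fermat.Agent.S28.Export Fermat.Agent.S18.Vert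

variable {K : Type*} [Field K] {A : ValuationSubring K} [IsDiscreteValuationRing A]
  {F : IntermediateField K (LaurentSeries K)} (hq : IsQuot A F) (h : IsGood A F)

theorem red_gaussRes (f : gaussVal A F hq) :
    Red A ((f : F) : LaurentSeries K) (gaussRes hq f) := by
  obtain ⟨P, Q, -, -, hQ0, hf⟩ := f.2
  exact ⟨P, Q, hQ0, hf, gaussRes_spec hq f hQ0 hf⟩

theorem gaussVal_le_gaussRing : gaussVal A F hq ≤ gaussRing A F h :=
  fun f hf => ⟨_, red_gaussRes hq ⟨f, hf⟩⟩

theorem gaussVal_eq_gaussRing : gaussVal A F hq = gaussRing A F h := by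
  refine le_antisymm (gaussVal_le_gaussRing hq h) ?_
  rintro f ⟨g, hg⟩
  by_contra hf
  have hf0 : f ≠ 0 := by
    rintro rfl
    exact hf (gaussVal A F hq).zero_mem
  have hinv : f⁻¹ ∈ gaussVal A F hq := ((gaussVal A F hq).mem_or_inv_mem f).resolve_left hf
  have hnu : ¬ IsUnit (⟨f⁻¹, hinv⟩ : gaussVal A F hq) := by
    intro hu
    obtain ⟨v, hv⟩ := hu.exists_right_inv
    apply hf
    have h1 : f⁻¹ * (v : F) = 1 := congrArg Subtype.val hv
    have h2 : f = (v : F) := by
      field_simp at h1
      exact h1.symm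
    rw [h2]
    exact v.2
  rw [isUnit_iff_gaussRes_ne_zero hq, not_not] at hnu
  have h1 := red_gaussRes hq ⟨f⁻¹, hinv⟩
  rw [hnu] at h1
  have h2 := hg.mul h1
  have hf0' : (f : LaurentSeries K) ≠ 0 := fun h0 => hf0 (Subtype.ext h0)
  have e : (f : LaurentSeries K) * (((⟨f⁻¹, hinv⟩ : gaussVal A F hq) : F) : LaurentSeries K) = 1 := by
    show (f : LaurentSeries K) * ((f⁻¹ : F) : LaurentSeries K) = 1
    push_cast
    exact mul_inv_cancel₀ hf0'
  rw [e, mul_zero] at h2
  exact one_ne_zero (red_one.unique h2)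

theorem gaussRes_eq_redHom (f : gaussVal A F hq) (hf : (f : F) ∈ gaussRing A F h) :
    gaussRes hq f = redHom h ⟨(f : F), hf⟩ :=
  (redHom_eq h (f := ⟨(f : F), hf⟩) (red_gaussRes hq f)).symm

end Fermat.Agent.S19.KM.Mod
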