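import Fermat.Agent.S19.KM.Geom.Mod.Frames.GaussEq
import Fermat.Agent.S19.KM.Geom.Lift
import Fermat.Agent.GAL.KLInputs.Wire
import Fermat.Agent.Lib.GoodRed.Main

/-!
# S19 / KM route, block [G], section M6 (part b): frames over a discrete valuation ring, generic form

The instantiation of `exists_frames_LL` at a field `K(j) ⊆ F ⊆ K(j, u) ⊆ K((q))`, `E = K(x)`,
`𝒟 = gaussRing A₀ F`, parallel to `GAL.KLInputs.klGen_of_gauss`.  Task 2221 (helper275).
-/

set_option autoImplicit false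
set_option linter.unusedSectionVars false
set_option linter.style.haveILetI false

noncomputable section

namespace Fermat.Agent.S19.KM.Mod

open ModularCurve AlgebraicCurve Polynomial IntermediateField Fermat.Agent.GoodRed
  Fermat.Agent.S18.Descent Fermat.Agent.S18.Vert Fermat.Agent.S24.FF Fermat.Agent.S28
  Fermat.Agent.S28.Export Submodule

variable {K : Type*} [Field K] [CharZero K] (A₀ : ValuationSubring K)
  [IsDiscreteValuationRing A₀] {N ℓ : ℕ} [Fact ℓ.Prime] (D : UData N ℓ)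
  (hℓ : A₀.LiesOverPrime ℓ) (F : IntermediateField K (LaurentSeries K))

set_option synthInstance.maxHeartbeats 400000 in
set_option maxHeartbeats 1000000 in
theorem frames_of_gauss [IsFF1 K F] (hj : jqModC K ∈ F) (hF : F ≤ bigField A₀ D hℓ)
    (hq : IsQuot A₀ F) (h₀ : IsGood A₀ F) (x : gaussRing A₀ F h₀)
    (hx : Transcendental (IsLocalRing.ResidueField A₀) (redHom h₀ x))
    (hxK : Transcendental K (x : F))
    (hjx : (⟨jqModC K, hj⟩ : F) ∈ K⟮(x : F)⟯)
    (g₀ g₁ : ℤ[X])
    (hg₀ : Squarefree (g₀.map (Int.castRingHom (IsLocalRing.ResidueField A₀))))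
    (hg₁ : Squarefree (g₁.map (Int.castRingHom (IsLocalRing.ResidueField A₀))))
    (hU₀ : UnramOutsideVS K (x : F) (g₀.map (Int.castRingHom K)))
    (hU₁ : UnramOutsideVS K (x : F)⁻¹ (g₁.map (Int.castRingHom K)))
    (hfin : ∀ i, Module.Finite K (LL K (x : F) i)) :
    ∃ i₀ : ℕ, ∀ i, i₀ ≤ i → ∃ (m : ℕ) (v : Fin m → gaussRing A₀ F h₀),
      span K (Set.range fun j => ((v j : gaussRing A₀ F h₀) : F)) = LL K (x : F) i ∧
      LinearIndependent (IsLocalRing.ResidueField A₀) (fun j => redE h₀ (v j)) ∧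
      span (IsLocalRing.ResidueField A₀) (Set.range fun j => redE h₀ (v j)) =
        LL (IsLocalRing.ResidueField A₀) (redE h₀ x) i := by
  letI : Algebra A₀ K⟮(x : F)⟯ := ((algebraMap K K⟮(x : F)⟯).comp A₀.subtype).toAlgebra
  haveI : IsScalarTower A₀ K K⟮(x : F)⟯ := IsScalarTower.of_algebraMap_eq fun _ => rfl
  haveI : FiniteDimensional K⟮(x : F)⟯ F := IsFF1.finite _ hxK
  obtain ⟨ϖ, hϖ⟩ := IsDiscreteValuationRing.exists_irreducible A₀
  have hgen : algebraMap K⟮(x : F)⟯ F (AdjoinSimple.gen K (x : F)) = (x : F) :=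
    AdjoinSimple.algebraMap_gen K (x : F)
  have hmapK : ∀ g : ℤ[X], (g.map (Int.castRingHom A₀)).map (algebraMap A₀ K) =
      g.map (Int.castRingHom K) := fun g => by
    rw [Polynomial.map_map]
    congr 1
  have hmapk : ∀ g : ℤ[X], (g.map (Int.castRingHom A₀)).map (IsLocalRing.residue A₀) =
      g.map (Int.castRingHom (IsLocalRing.ResidueField A₀)) := fun g => by
    rw [Polynomial.map_map]
    congr 1
  have hxV : (x : F) ∈ gaussVal A₀ F hq := by
    rw [gaussVal_eq_gaussRing hq h₀]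
    exact x.2
  have hG : GaussData A₀ ϖ (gaussVal A₀ F hq) (AdjoinSimple.gen K (x : F)) := by
    refine gaussData hj hF hq (AdjoinSimple.gen K (x : F)) (by rw [hgen]; exact hxV) ?_
      ⟨_, hjx⟩ rfl (by rw [hgen]; exact hjx) hϖ
    rw [gaussRes_eq_redHom hq h₀ _ (by
      show algebraMap K⟮(x : F)⟯ F (AdjoinSimple.gen K (x : F)) ∈ gaussRing A₀ F h₀
      rw [hgen]; exact x.2)]
    convert hx using 2
    exact Subtype.ext hgen
  rw [gaussVal_eq_gaussRing hq h₀] at hG
  have htr : Transcendental K (AdjoinSimple.gen K (x : F)) := transcendental_gen hxK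
  have htop := adjoin_gen_eq_top (K := K) (x : F)
  have hG' := GaussData.inv K ϖ hϖ _ htr htop _ hG
  have htr' := transcendental_inv K _ htr
  have htop' := adjoin_inv_eq_top K _ htop
  have N0 := isDedekindDomain_chart_quotient K ϖ hϖ _ htr htop _ hG (g₀.map (Int.castRingHom A₀))
    (by rw [hmapk]; exact hg₀) (unramOutside_gen _ _ (by rw [hmapK]; exact hU₀))
  have N1 := isDedekindDomain_chart_quotient K ϖ hϖ _ htr' htop' _ hG'
    (g₁.map (Int.castRingHom A₀))
    (by rw [hmapk]; exact hg₁) (unramOutside_gen_inv _ _ (by rw [hmapK]; exact hU₁))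
  have key := exists_frames_LL K ϖ hϖ _ htr htop (gaussRing A₀ F h₀) hG N0 N1
    (by rw [hgen]; exact hfin) (IsLocalRing.residue A₀) (redE h₀) IsLocalRing.residue_surjective
    (redE_surjective h₀) (fun a => (redData h₀).red_algebraMap a) (by rw [hgen]; exact x.2)
  obtain ⟨i₀, hi₀⟩ := key
  refine ⟨i₀, fun i hi => ?_⟩
  obtain ⟨m, v, h1, h2, h3⟩ := hi₀ i hi
  refine ⟨m, v, ?_, h2, ?_⟩
  · rw [h1, hgen]
  · rw [h3]
    congr 2

end Fermat.Agent.S19.KM.Mod
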